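/-
helper34: P-ES / KL-M-DVR, core (Mathlib only): a valuation subring `V ≠ ⊤` of the fraction field
of a Dedekind domain `R` with `R ⊆ V` is the valuation ring of a height one prime of `R`; in
particular it is a discrete valuation ring.
-/
import Mathlib

set_option autoImplicit false

noncomputable section

open IsDedekindDomain

namespace Fermat.Agent.H34

section core

variable {R K : Type*} [CommRing R] [IsDedekindDomain R] [Field K] [Algebra R K]
  [IsFractionRing R K]

/-- A valuation subring `V ≠ ⊤` of the fraction field of a Dedekind domain `R` containing `R` is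
the localisation of `R` at a height one prime. -/
theorem exists_valuationSubringAtPrime_eq (V : ValuationSubring K) (hV : V ≠ ⊤)
    (hR : ∀ r : R, algebraMap R K r ∈ V) :
    ∃ w : HeightOneSpectrum R, HeightOneSpectrum.valuationSubringAtPrime K w = V := by
  let φ : R →+* V := (algebraMap R K).codRestrict V.toSubring hR
  let P : Ideal R := Ideal.comap φ (IsLocalRing.maximalIdeal V)
  have hPprime : P.IsPrime := Ideal.comap_isPrime φ _
  -- elements outside `P` are invertible in `V`
  have hinv : ∀ r : R, r ∉ P → (algebraMap R K r)⁻¹ ∈ V := by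
    intro r hr
    have h1 : φ r ∉ IsLocalRing.maximalIdeal V := hr
    rw [IsLocalRing.notMem_maximalIdeal] at h1
    obtain ⟨b, hb⟩ := isUnit_iff_exists_inv.mp h1
    have hb' : algebraMap R K r * (b : K) = 1 := congrArg Subtype.val hb
    have : (algebraMap R K r)⁻¹ = (b : K) := (eq_inv_of_mul_eq_one_right hb').symm
    rw [this]
    exact b.2
  have hPne : P ≠ ⊥ := by
    intro hbot
    apply hV
    refine SetLike.ext fun x => ⟨fun _ => ValuationSubring.mem_top x, fun _ => ?_⟩
    obtain ⟨n, d, hd, rfl⟩ := IsFractionRing.div_surjective (A := R) x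
    have hd0 : d ≠ 0 := nonZeroDivisors.ne_zero hd
    have hdP : d ∉ P := by
      rw [hbot, Ideal.mem_bot]
      exact hd0
    rw [div_eq_mul_inv]
    exact mul_mem (hR n) (hinv d hdP)
  let w : HeightOneSpectrum R := ⟨P, hPprime, hPne⟩
  refine ⟨w, ?_⟩
  apply ValuationSubring.eq_of_le_of_ne_top _ _ hV
  intro x hx
  rw [HeightOneSpectrum.valuationSubringAtPrime_eq_valuationSubring] at hx
  obtain ⟨n, d, hnd⟩ := w.exists_primeCompl_mul_eq_of_integer x hx
  have hd : (d : R) ∉ P := d.2
  have hd0 : algebraMap R K d ≠ 0 := by
    intro h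
    apply hd
    have : (d : R) = 0 := (map_eq_zero_iff _ (IsFractionRing.injective R K)).mp h
    rw [this]
    exact P.zero_mem
  have hx' : x = algebraMap R K n * (algebraMap R K d)⁻¹ := by
    rw [← hnd]
    field_simp
  rw [hx']
  exact mul_mem (hR n) (hinv d hd)

/-- A valuation subring `V ≠ ⊤` of the fraction field of a Dedekind domain `R` containing `R` is
a discrete valuation ring. -/
theorem isDiscreteValuationRing_of_dedekind_le (V : ValuationSubring K) (hV : V ≠ ⊤)
    (hR : ∀ r : R, algebraMap R K r ∈ V) : IsDiscreteValuationRing V := by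
  obtain ⟨w, hw⟩ := exists_valuationSubringAtPrime_eq (R := R) V hV hR
  have h : IsDiscreteValuationRing (HeightOneSpectrum.valuationSubringAtPrime K w) :=
    IsLocalization.AtPrime.isDiscreteValuationRing_of_dedekind_domain R w.ne_bot _
  rw [hw] at h
  exact h

end core

end Fermat.Agent.H34

end
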