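/-
helper34: P-ES / KL-M-DVR: the trace `A ∩ K₁` of a valuation subring `A` of `ℚ̄` over `ℓ` on a
number field `K₁` is a discrete valuation ring.
-/
import Fermat.Agent.H22.ES.KLModel
import Fermat.Agent.H34.KLM.DVRCore

set_option autoImplicit false

noncomputable section

namespace Fermat.Agent.H34

/-- **KL-M-DVR**. -/
theorem modelDVR : Fermat.Agent.H22.KL.ModelDVRStatement := by
  intro K₁ _ _ _ ι A ℓ hℓ hA
  have hchar : CharZero K₁ := algebraRat.charZero K₁
  have hsep : Algebra.IsSeparable ℚ K₁ := inferInstance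
  let O := integralClosure ℤ K₁
  have hDO : IsDedekindDomain O := integralClosure.isDedekindDomain ℤ ℚ K₁
  have hFO : IsFractionRing O K₁ := integralClosure.isFractionRing_of_finite_extension ℚ K₁
  refine isDiscreteValuationRing_of_dedekind_le (R := O) (A.comap ι) ?_ ?_
  · intro htop
    have hℓ0 : ((ℓ : ℕ) : AlgebraicClosure ℚ) ≠ 0 := Nat.cast_ne_zero.mpr hℓ.ne_zero
    have h1 : ((ℓ : ℕ) : AlgebraicClosure ℚ)⁻¹ ∉ A := by
      rcases (ValuationSubring.mem_nonunits_iff_or A).mp hA with h | h
      · exact absurd h hℓ0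
      · exact h
    apply h1
    have h2 : ((ℓ : ℕ) : K₁)⁻¹ ∈ A.comap ι := by
      rw [htop]
      exact ValuationSubring.mem_top _
    rw [ValuationSubring.mem_comap] at h2
    simpa using h2
  · intro r
    rw [ValuationSubring.mem_comap]
    have hr : IsIntegral ℤ (r : K₁) := r.2
    have hr' : IsIntegral ℤ (ι (r : K₁)) := hr.map ι.toIntAlgHom
    have hr'' : IsIntegral A (ι (r : K₁)) := hr'.tower_top
    obtain ⟨a, ha⟩ := IsIntegrallyClosed.isIntegral_iff.mp hr''
    rw [show algebraMap O K₁ r = (r : K₁) from rfl, ← ha]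
    exact a.2

end Fermat.Agent.H34

end
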